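import Mathlib
import Fermat.Agent.P2.Defs

/-!
# P2: interface between the quaternionic side (blocks 3, 4) and `Block34Out`
-/

set_option autoImplicit false

noncomputable section

open ModularCurve CongruenceSubgroup NumberField ModularFormClass

namespace Fermat.Agent.P2

/-- The data to be produced by blocks 3 and 4: the class set `X` of a definite quaternion order of
level `M = lev S Q` with its Brandt matrices, Atkin-Lehner permutations, theta series, and the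
classes `e c = [𝔠 O]`, `c ∈ Cl(K)`, `K = ℚ(√-N)`, `N = ∏ S`. -/
structure BrandtSys (S Q : Finset ℕ) (K : Type) [Field K] [NumberField K] where
  X : Type
  fin : Fintype X
  /-- Brandt matrices -/
  B : ℕ → X → X → ℕ
  B_one : ∀ x, B 1 x x = 1
  B_one' : ∀ x y, x ≠ y → B 1 x y = 0
  B_mul : ∀ ℓ : ℕ, ℓ.Prime → ¬ ℓ ∣ lev S Q → ∀ n : ℕ, 1 ≤ n → ∀ x z : X,
    ∑ y, B n x y * B ℓ y z = B (n * ℓ) x z + if ℓ ∣ n then ℓ * B (n / ℓ) x z else 0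
  /-- Atkin-Lehner permutations -/
  w : ℕ → X → X
  w_one : ∀ x, w 1 x = x
  w_mul : ∀ m m' : ℕ, m * m' ∣ lev S Q → m.Coprime m' → ∀ x, w m (w m' x) = w (m * m') x
  w_sq : ∀ m : ℕ, m ∣ lev S Q → ∀ x, w m (w m x) = x
  B_w : ∀ m : ℕ, m ∣ lev S Q → ∀ ℓ : ℕ, ℓ.Prime → ¬ ℓ ∣ lev S Q → ∀ x y,
    B ℓ (w m x) (w m y) = B ℓ x y
  B_q : ∀ q ∈ Q, ∀ n : ℕ, 1 ≤ n → ∀ x y, B (n * q) x y = B n x (w q y)
  B_two : ∀ n : ℕ, 1 ≤ n → ∀ x y, B (n * 2) x y = B n x (w 2 y)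
  /-- theta series -/
  theta : ∀ x y, ∃ F : ModularForm (Gamma0 (lev S Q)) 2, ∀ n : ℕ, 1 ≤ n →
    qCoeff F n = 2 * (B n x y : ℂ)
  /-- the classes of the lattices `𝔠 O` -/
  e : ClassGroup (𝓞 K) → X
  w_e : ∀ c, w (∏ q ∈ S, q) (e c) = e c
  c0 : ClassGroup (𝓞 K)
  sep : ∀ (c c' : ClassGroup (𝓞 K)) (d : ℕ), d ∣ ∏ q ∈ Q, q → w d (e c') = e c →
    c = c' ∨ c * c' = c0
  T : ∀ ℓ : ℕ, ℓ.Prime → ¬ ℓ ∣ lev S Q → ∀ (c : ClassGroup (𝓞 K)) (g : X → ZMod 2),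
    (∀ d : ℕ, d ∣ ∏ q ∈ Q, q → ∀ x, g (w d x) = g x) → (∀ x, g (w (∏ q ∈ S, q) x) = g x) →
    ∑ y, (B ℓ (e c) y : ZMod 2) * g y =
      ∑ᶠ 𝔭 : {𝔭 : nonZeroDivisors (Ideal (𝓞 K)) // Ideal.absNorm (𝔭 : Ideal (𝓞 K)) = ℓ},
        g (e (ClassGroup.mk0 (𝔭 : nonZeroDivisors (Ideal (𝓞 K))) * c))
  even : ∀ ℓ : ℕ, ℓ.Prime → ¬ ℓ ∣ lev S Q → ∀ d : ℕ, d ∣ ∏ q ∈ Q, q → d ≠ 1 →
    ¬ IsSquare (-(d : ZMod ℓ)) → ∀ x y, w (∏ q ∈ S, q) x = x → w (∏ q ∈ S, q) y = y →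
    w d x = x → w d y = y → Even (B ℓ x y)

attribute [instance] BrandtSys.fin

/-- Output of the quaternionic side. -/
def BrandtOut : Prop :=
  ∀ (S Q : Finset ℕ) (K : Type) [Field K] [NumberField K] (r : K),
    Module.finrank ℚ K = 2 → r ^ 2 = -((∏ q ∈ S, q : ℕ) : K) →
    (∀ q ∈ S, q.Prime) → 2 ∈ S → Rich S →
    (∀ q ∈ Q, q.Prime ∧ q ∉ S ∧ q ≠ 2 ∧ q ≠ 3 ∧ ¬ IsSquare (-((∏ p ∈ S, p : ℕ) : ZMod q))) →
    Nonempty (BrandtSys S Q K)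

end Fermat.Agent.P2
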