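import Mathlib
import Fermat.Agent.P2.B34.Sys

/-!
# P2: the group `W = (ℤˣ)^{Q ∪ {N}}` acting on the class set
-/

set_option autoImplicit false

noncomputable section

namespace Fermat.Agent.P2.B34

section Gen

/-- the homomorphism `ℤˣ → M` with `-1 ↦ s` -/
def sgnHom {M : Type*} [Monoid M] (s : M) (h : s * s = 1) : ℤˣ →* M where
  toFun u := if u = 1 then 1 else s
  map_one' := if_pos rfl
  map_mul' u v := by
    rcases Int.units_eq_one_or u with rfl | rfl <;> rcases Int.units_eq_one_or v with rfl | rfl <;>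
      simp [h]

@[simp] lemma sgnHom_neg_one {M : Type*} [Monoid M] (s : M) (h : s * s = 1) :
    sgnHom s h (-1) = s := by
  show (if (-1 : ℤˣ) = 1 then (1 : M) else s) = s
  rw [if_neg (by decide)]

lemma sgnHom_commute {M : Type*} [Monoid M] (s t : M) (h : s * s = 1) (h' : t * t = 1)
    (hc : Commute s t) (u v : ℤˣ) : Commute (sgnHom s h u) (sgnHom t h' v) := by
  rcases Int.units_eq_one_or u with rfl | rfl
  · rw [map_one]; exact Commute.one_left _
  · rcases Int.units_eq_one_or v with rfl | rfl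
    · rw [map_one]; exact Commute.one_right _
    · rw [sgnHom_neg_one, sgnHom_neg_one]; exact hc

variable {ι X : Type*} [Fintype ι] [DecidableEq ι] (σ : ι → Equiv.Perm X)
  (h2 : ∀ i, σ i * σ i = 1) (hc : ∀ i j, i ≠ j → Commute (σ i) (σ j))

omit [Fintype ι] [DecidableEq ι] in
include hc in
lemma pw : Pairwise fun i j ↦ ∀ (x y : ℤˣ),
    Commute (sgnHom (σ i) (h2 i) x) (sgnHom (σ j) (h2 j) y) :=
  fun i j hij x y ↦ sgnHom_commute _ _ _ _ (hc i j hij) x y

/-- the action of `ι → ℤˣ` by commuting involutions -/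
def actHom : (ι → ℤˣ) →* Equiv.Perm X :=
  MonoidHom.noncommPiCoprod (fun i ↦ sgnHom (σ i) (h2 i)) (pw σ h2 hc)

lemma actHom_mulSingle (i : ι) : actHom σ h2 hc (Pi.mulSingle i (-1)) = σ i := by
  unfold actHom
  rw [MonoidHom.noncommPiCoprod_mulSingle, sgnHom_neg_one]

lemma units_sq (u : ι → ℤˣ) : u * u = 1 := by
  funext i
  exact Int.units_mul_self (u i)

end Gen

open Fermat.Agent.P2

variable {S Q : Finset ℕ} {K : Type} [Field K] [NumberField K] (D : BrandtSys S Q K)

/-- the permutation `w_m` -/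
def perm (m : ℕ) (hm : m ∣ lev S Q) : Equiv.Perm D.X where
  toFun := D.w m
  invFun := D.w m
  left_inv := D.w_sq m hm
  right_inv := D.w_sq m hm

@[simp] lemma perm_apply (m : ℕ) (hm : m ∣ lev S Q) (x : D.X) : perm D m hm x = D.w m x := rfl

variable (S Q) in
/-- the index set: `none` for `w_N` and `some q` for `w_q` -/
abbrev Idx : Type := Option Q

variable (S) in
/-- the integer attached to an index -/
def dd : Idx Q → ℕ
  | none => ∏ q ∈ S, q
  | some q => q

lemma dvd_lev_left : ∏ q ∈ S, q ∣ lev S Q := Dvd.intro _ rfl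

lemma dvd_lev_right {d : ℕ} (hd : d ∣ ∏ q ∈ Q, q) : d ∣ lev S Q :=
  hd.trans (Dvd.intro_left _ rfl)

lemma dd_dvd (i : Idx Q) : dd S i ∣ lev S Q := by
  cases i with
  | none => exact dvd_lev_left
  | some q => exact dvd_lev_right (Finset.dvd_prod_of_mem _ q.2)

/-- hypotheses on the sets of primes -/
structure Good (S Q : Finset ℕ) : Prop where
  hS : ∀ q ∈ S, q.Prime
  hQ : ∀ q ∈ Q, q.Prime
  disj : ∀ q ∈ Q, q ∉ S

lemma squarefree_prod' {S : Finset ℕ} (hS : ∀ q ∈ S, q.Prime) : Squarefree (∏ q ∈ S, q) := by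
  induction S using Finset.induction_on with
  | empty => simp
  | insert p S hp ih =>
    rw [Finset.prod_insert hp]
    have h1 : p.Prime := hS p (Finset.mem_insert_self _ _)
    have h2 : ∀ q ∈ S, q.Prime := fun q hq => hS q (Finset.mem_insert_of_mem hq)
    refine (Nat.squarefree_mul ?_).mpr ⟨h1.prime.squarefree, ih h2⟩
    refine Nat.Coprime.prod_right fun q hq ↦ (Nat.coprime_primes h1 (h2 q hq)).mpr ?_
    rintro rfl
    exact hp hq

lemma Good.coprime (h : Good S Q) : (∏ q ∈ S, q).Coprime (∏ q ∈ Q, q) := by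
  refine Nat.Coprime.prod_left fun p hp ↦ Nat.Coprime.prod_right fun q hq ↦
    (Nat.coprime_primes (h.hS p hp) (h.hQ q hq)).mpr ?_
  rintro rfl
  exact h.disj _ hq hp

lemma Good.squarefree (h : Good S Q) : Squarefree (lev S Q) :=
  (Nat.squarefree_mul h.coprime).mpr ⟨squarefree_prod' h.hS, squarefree_prod' h.hQ⟩

lemma Good.dd_mul (h : Good S Q) {i j : Idx Q} (hij : i ≠ j) : dd S i * dd S j ∣ lev S Q := by
  cases i with
  | none =>
    cases j with
    | none => exact absurd rfl hij
    | some q => exact mul_dvd_mul_left _ (Finset.dvd_prod_of_mem _ q.2)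
  | some p =>
    cases j with
    | none =>
      rw [mul_comm]
      exact mul_dvd_mul_left _ (Finset.dvd_prod_of_mem _ p.2)
    | some q =>
      have hpq : (p : ℕ) ≠ q := fun h ↦ hij (by rw [Subtype.ext h])
      refine dvd_lev_right ?_
      have h1 : ((p : ℕ)).Coprime q := (Nat.coprime_primes (h.hQ p p.2) (h.hQ q q.2)).mpr hpq
      exact h1.mul_dvd_of_dvd_of_dvd (Finset.dvd_prod_of_mem _ p.2) (Finset.dvd_prod_of_mem _ q.2)

lemma Good.coprime_of_dvd (h : Good S Q) {a b : ℕ} (hab : a * b ∣ lev S Q) : a.Coprime b :=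
  Nat.coprime_of_squarefree_mul (h.squarefree.squarefree_of_dvd hab)

/-- the generators of the group -/
def sg' (i : Idx Q) : Equiv.Perm D.X := perm D (dd S i) (dd_dvd i)

lemma sg'_sq (i : Idx Q) : sg' D i * sg' D i = 1 := by
  ext x
  exact D.w_sq _ (dd_dvd i) x

lemma sg'_comm (h : Good S Q) (i j : Idx Q) (hij : i ≠ j) : Commute (sg' D i) (sg' D j) := by
  have h1 := h.dd_mul hij
  have h2 := h.dd_mul hij.symm
  ext x
  show D.w (dd S i) (D.w (dd S j) x) = D.w (dd S j) (D.w (dd S i) x)
  rw [D.w_mul _ _ h1 (h.coprime_of_dvd h1), D.w_mul _ _ h2 (h.coprime_of_dvd h2), mul_comm]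

open scoped Classical in
/-- the group `W` acts on the class set -/
def wHom (h : Good S Q) : (Idx Q → ℤˣ) →* Equiv.Perm D.X :=
  actHom (sg' D) (sg'_sq D) (sg'_comm D h)

open scoped Classical in
lemma wHom_single (h : Good S Q) (i : Idx Q) (x : D.X) :
    wHom D h (Pi.mulSingle i (-1)) x = D.w (dd S i) x := by
  unfold wHom
  rw [actHom_mulSingle]
  rfl

open scoped Classical in
/-- the divisor of `∏ Q` attached to an element of `W` -/
def dOf (u : Idx Q → ℤˣ) (s : Finset Q) : ℕ := ∏ q ∈ s, if u (some q) = 1 then 1 else (q : ℕ)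

lemma dOf_dvd (u : Idx Q → ℤˣ) (s : Finset Q) : dOf u s ∣ ∏ q ∈ s, (q : ℕ) := by
  unfold dOf
  refine Finset.prod_dvd_prod_of_dvd _ _ fun q _ ↦ ?_
  split_ifs
  · exact one_dvd _
  · exact dvd_rfl

lemma prod_univ_Q : ∏ q : Q, (q : ℕ) = ∏ q ∈ Q, q := Finset.prod_coe_sort Q (fun q ↦ q)

lemma prod_sub_dvd (s : Finset Q) : ∏ q ∈ s, (q : ℕ) ∣ ∏ q ∈ Q, q := by
  rw [← prod_univ_Q]
  exact Finset.prod_dvd_prod_of_subset _ _ _ (Finset.subset_univ s)

open scoped Classical in
lemma wHom_prod (h : Good S Q) (u : Idx Q → ℤˣ) (s : Finset Q) (x : D.X) :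
    wHom D h (∏ q ∈ s, Pi.mulSingle (some q) (u (some q))) x = D.w (dOf u s) x := by
  induction s using Finset.induction_on with
  | empty =>
    rw [Finset.prod_empty, map_one]
    show x = D.w (dOf u ∅) x
    rw [dOf, Finset.prod_empty, D.w_one]
  | insert q s hq ih =>
    rw [Finset.prod_insert hq, map_mul, Equiv.Perm.mul_apply, ih]
    have h0 : dOf u (insert q s) = (if u (some q) = 1 then 1 else (q : ℕ)) * dOf u s := by
      unfold dOf
      rw [Finset.prod_insert hq]
    rcases Int.units_eq_one_or (u (some q)) with h1 | h1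
    · rw [h0, h1, if_pos rfl, one_mul]
      have : (Pi.mulSingle (some q) (1 : ℤˣ) : Idx Q → ℤˣ) = 1 := Pi.mulSingle_one _
      rw [this, map_one]
      rfl
    · rw [h0, h1, if_neg (by decide), wHom_single]
      show D.w (q : ℕ) (D.w (dOf u s) x) = _
      have h2 : (q : ℕ) * dOf u s ∣ lev S Q := by
        refine dvd_lev_right (dvd_trans ?_ (prod_sub_dvd (insert q s)))
        rw [Finset.prod_insert hq]
        exact mul_dvd_mul_left _ (dOf_dvd u s)
      rw [D.w_mul _ _ h2 (h.coprime_of_dvd h2)]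

open scoped Classical in
lemma eq_prod (u : Idx Q → ℤˣ) : u = (∏ q : Q, Pi.mulSingle (some q) (u (some q))) *
    Pi.mulSingle none (u none) := by
  funext i
  rw [Pi.mul_apply, Finset.prod_apply]
  cases i with
  | none =>
    rw [Finset.prod_eq_one, one_mul, Pi.mulSingle_eq_same]
    intro q _
    exact Pi.mulSingle_eq_of_ne (by simp) _
  | some q =>
    rw [Finset.prod_eq_single q, Pi.mulSingle_eq_same, Pi.mulSingle_eq_of_ne (by simp), mul_one]
    · intro q' _ hq'
      exact Pi.mulSingle_eq_of_ne (by simpa using Ne.symm hq') _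
    · exact fun h ↦ absurd (Finset.mem_univ _) h

open scoped Classical in
/-- the element `w_N` of `W` -/
def wN : Idx Q → ℤˣ := Pi.mulSingle none (-1)

lemma wHom_wN (h : Good S Q) (x : D.X) : wHom D h wN x = D.w (∏ q ∈ S, q) x :=
  wHom_single D h none x

/-- on the fixed points of `w_N`, the element `u` acts as `w_d` -/
lemma wHom_of_fix (h : Good S Q) (u : Idx Q → ℤˣ) {x : D.X} (hx : D.w (∏ q ∈ S, q) x = x) :
    wHom D h u x = D.w (dOf u Finset.univ) x := by
  classical
  conv_lhs => rw [eq_prod u]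
  rw [map_mul, Equiv.Perm.mul_apply]
  have h1 : wHom D h (Pi.mulSingle none (u none)) x = x := by
    rcases Int.units_eq_one_or (u none) with h1 | h1
    · rw [h1]
      have : (Pi.mulSingle none (1 : ℤˣ) : Idx Q → ℤˣ) = 1 := Pi.mulSingle_one _
      rw [this, map_one]
      rfl
    · rw [h1, wHom_single]
      exact hx
  rw [h1]
  exact wHom_prod D h u Finset.univ x

/-- in general -/
lemma wHom_eq (h : Good S Q) (u : Idx Q → ℤˣ) (x : D.X) :
    wHom D h u x = D.w (dOf u Finset.univ) x ∨
      wHom D h u x = D.w (dOf u Finset.univ) (D.w (∏ q ∈ S, q) x) := by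
  classical
  rw [eq_prod u]
  rw [map_mul, Equiv.Perm.mul_apply, ← eq_prod u]
  rcases Int.units_eq_one_or (u none) with h1 | h1
  · left
    rw [h1]
    have : (Pi.mulSingle none (1 : ℤˣ) : Idx Q → ℤˣ) = 1 := Pi.mulSingle_one _
    rw [this, map_one]
    exact wHom_prod D h u Finset.univ x
  · right
    rw [h1, wHom_single]
    exact wHom_prod D h u Finset.univ _

lemma dOf_ne_one (h : Good S Q) {u : Idx Q → ℤˣ} (h1 : u ≠ 1) (h2 : u ≠ wN) :
    dOf u Finset.univ ≠ 1 := by
  classical
  intro h3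
  have h4 : ∀ q : Q, u (some q) = 1 := by
    intro q
    by_contra h5
    have h6 : (q : ℕ) ∣ dOf u Finset.univ := by
      unfold dOf
      have := Finset.dvd_prod_of_mem (fun q : Q ↦ if u (some q) = 1 then 1 else (q : ℕ))
        (Finset.mem_univ q)
      simpa only [if_neg h5] using this
    rw [h3, Nat.dvd_one] at h6
    exact (h.hQ q q.2).one_lt.ne' h6
  rcases Int.units_eq_one_or (u none) with h5 | h5
  · apply h1
    funext i
    cases i with
    | none => exact h5
    | some q => exact h4 q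
  · apply h2
    funext i
    cases i with
    | none =>
      rw [h5]
      unfold wN
      rw [Pi.mulSingle_eq_same]
    | some q =>
      rw [h4 q]
      unfold wN
      rw [Pi.mulSingle_eq_of_ne (by simp)]

end Fermat.Agent.P2.B34
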