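import Mathlib
import Fermat.Agent.P2.B34.GroupW
import Fermat.Agent.P2.Smith.Star2
import Fermat.Agent.P2.Theta.Transfer2

/-!
# P2: the Hecke module `X → ℤ` of a `BrandtSys` is a Brandt module
-/

set_option autoImplicit false

noncomputable section

open ModularCurve CongruenceSubgroup NumberField ModularFormClass

namespace Fermat.Agent.P2.B34

open Fermat.Agent.P2

variable {S Q : Finset ℕ} {K : Type} [Field K] [NumberField K] (D : BrandtSys S Q K)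

/-- Brandt matrices with integer entries -/
def nZ (ℓ : Nat.Primes) (x y : D.X) : ℤ := (D.B ℓ x y : ℤ)

lemma op_comp (ℓ ℓ' : Nat.Primes) (hℓ' : ¬ (ℓ' : ℕ) ∣ lev S Q) (hne : ℓ ≠ ℓ') (f : D.X → ℤ)
    (x : D.X) : Smith.op ℤ (nZ D) ℓ (Smith.op ℤ (nZ D) ℓ' f) x =
      ∑ z, (D.B ((ℓ : ℕ) * ℓ') x z : ℤ) * f z := by
  rw [Smith.op_apply]
  simp only [Smith.op_apply, Finset.mul_sum]
  rw [Finset.sum_comm]
  refine Finset.sum_congr rfl fun z _ ↦ ?_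
  have h1 := D.B_mul ℓ' ℓ'.2 hℓ' ℓ ℓ.2.one_lt.le x z
  have h2 : ¬ (ℓ' : ℕ) ∣ ℓ := fun h ↦
    hne (Subtype.ext ((Nat.prime_dvd_prime_iff_eq ℓ'.2 ℓ.2).mp h)).symm
  rw [if_neg h2, add_zero] at h1
  rw [← h1]
  push_cast
  rw [Finset.sum_mul]
  refine Finset.sum_congr rfl fun y _ ↦ ?_
  simp only [nZ]
  ring

/-- the Hecke operators -/
def TT (ℓ : Nat.Primes) : Module.End ℤ (D.X → ℤ) :=
  open scoped Classical in if (ℓ : ℕ) ∣ lev S Q then 0 else Smith.op ℤ (nZ D) ℓ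

lemma TT_good {ℓ : Nat.Primes} (h : ¬ (ℓ : ℕ) ∣ lev S Q) : TT D ℓ = Smith.op ℤ (nZ D) ℓ :=
  if_neg h

lemma TT_comm (ℓ ℓ' : Nat.Primes) : TT D ℓ * TT D ℓ' = TT D ℓ' * TT D ℓ := by
  by_cases h : (ℓ : ℕ) ∣ lev S Q
  · have : TT D ℓ = 0 := if_pos h
    rw [this, zero_mul, mul_zero]
  by_cases h' : (ℓ' : ℕ) ∣ lev S Q
  · have : TT D ℓ' = 0 := if_pos h'
    rw [this, zero_mul, mul_zero]
  by_cases hne : ℓ = ℓ'
  · rw [hne]
  rw [TT_good D h, TT_good D h']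
  apply LinearMap.ext
  intro f
  funext x
  show Smith.op ℤ (nZ D) ℓ (Smith.op ℤ (nZ D) ℓ' f) x =
    Smith.op ℤ (nZ D) ℓ' (Smith.op ℤ (nZ D) ℓ f) x
  rw [op_comp D ℓ ℓ' h' hne, op_comp D ℓ' ℓ h (Ne.symm hne), mul_comm]

lemma TT_range_comm : ∀ a ∈ Set.range (TT D), ∀ b ∈ Set.range (TT D), a * b = b * a := by
  rintro _ ⟨ℓ, rfl⟩ _ ⟨ℓ', rfl⟩
  exact TT_comm D ℓ ℓ'

open scoped IsMulCommutative in
/-- the action of `ℤ[t_ℓ]` -/
def hHom : HeckeAlg →+* Module.End ℤ (D.X → ℤ) :=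
  haveI := Algebra.isMulCommutative_adjoin ℤ (TT_range_comm D)
  (Algebra.adjoin ℤ (Set.range (TT D))).val.toRingHom.comp
    (MvPolynomial.eval₂Hom (Int.castRingHom (Algebra.adjoin ℤ (Set.range (TT D))))
      fun ℓ ↦ ⟨TT D ℓ, Algebra.subset_adjoin ⟨ℓ, rfl⟩⟩)

lemma hHom_gen (ℓ : Nat.Primes) : hHom D (heckeGen ℓ) = TT D ℓ := by
  unfold hHom heckeGen
  simp

/-- the Hecke module -/
def Vm : Type := D.X → ℤ

instance : AddCommGroup (Vm D) := inferInstanceAs (AddCommGroup (D.X → ℤ))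

instance : Module HeckeAlg (Vm D) :=
  letI : Module (Module.End ℤ (D.X → ℤ)) (Vm D) :=
    inferInstanceAs (Module (Module.End ℤ (D.X → ℤ)) (D.X → ℤ))
  Module.compHom (Vm D) (hHom D)

lemma smul_def (t : HeckeAlg) (v : Vm D) : (t • v : Vm D) = (hHom D t (v : D.X → ℤ) : D.X → ℤ) := rfl

lemma gen_smul {ℓ : Nat.Primes} (h : ¬ (ℓ : ℕ) ∣ lev S Q) (v : Vm D) (x : D.X) :
    (heckeGen ℓ • v : Vm D) x = ∑ y, (D.B ℓ x y : ℤ) * (v : D.X → ℤ) y := by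
  rw [smul_def, hHom_gen, TT_good D h]
  rfl

/-- the functionals -/
def bb (x₀ : D.X) (n : ℕ) : Vm D →+ ℂ where
  toFun v := ∑ y, (D.B n x₀ y : ℂ) * ((v : D.X → ℤ) y : ℂ)
  map_zero' := by
    refine Finset.sum_eq_zero fun y _ ↦ ?_
    show (D.B n x₀ y : ℂ) * (((0 : D.X → ℤ) y : ℤ) : ℂ) = 0
    simp
  map_add' v v' := by
    rw [← Finset.sum_add_distrib]
    refine Finset.sum_congr rfl fun y _ ↦ ?_
    show (D.B n x₀ y : ℂ) * ((((v : D.X → ℤ) y + (v' : D.X → ℤ) y : ℤ)) : ℂ) = _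
    push_cast
    ring

lemma bb_apply (x₀ : D.X) (n : ℕ) (v : Vm D) :
    bb D x₀ n v = ∑ y, (D.B n x₀ y : ℂ) * ((v : D.X → ℤ) y : ℂ) := rfl

lemma bb_gen (x₀ : D.X) {ℓ : Nat.Primes} (h : ¬ (ℓ : ℕ) ∣ lev S Q) {n : ℕ} (hn : 1 ≤ n)
    (v : Vm D) : bb D x₀ n (heckeGen ℓ • v) =
      bb D x₀ (n * ℓ) v + if (ℓ : ℕ) ∣ n then (ℓ : ℂ) * bb D x₀ (n / ℓ) v else 0 := by
  have h1 : bb D x₀ n (heckeGen ℓ • v) =
      ∑ z, ((∑ y, D.B n x₀ y * D.B ℓ y z : ℕ) : ℂ) * ((v : D.X → ℤ) z : ℂ) := by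
    rw [bb_apply]
    have h2 : ∀ y, (((heckeGen ℓ • v : Vm D) y : ℤ) : ℂ) =
        ∑ z, (D.B ℓ y z : ℂ) * ((v : D.X → ℤ) z : ℂ) := by
      intro y
      rw [gen_smul D h]
      push_cast
      rfl
    simp only [h2, Finset.mul_sum]
    rw [Finset.sum_comm]
    refine Finset.sum_congr rfl fun z _ ↦ ?_
    push_cast
    rw [Finset.sum_mul]
    refine Finset.sum_congr rfl fun y _ ↦ ?_
    ring
  rw [h1, bb_apply]
  have h3 : ∀ z, ((∑ y, D.B n x₀ y * D.B ℓ y z : ℕ) : ℂ) * ((v : D.X → ℤ) z : ℂ) =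
      (D.B (n * ℓ) x₀ z : ℂ) * ((v : D.X → ℤ) z : ℂ) +
        if (ℓ : ℕ) ∣ n then (ℓ : ℂ) * ((D.B (n / ℓ) x₀ z : ℂ) * ((v : D.X → ℤ) z : ℂ)) else 0 := by
    intro z
    rw [D.B_mul ℓ ℓ.2 h n hn]
    split_ifs
    · push_cast
      ring
    · push_cast
      ring
  simp only [h3, Finset.sum_add_distrib]
  congr 1
  split_ifs with h4
  · rw [bb_apply, Finset.mul_sum]
  · exact Finset.sum_const_zero

lemma bb_modular [NeZero (lev S Q)] (x₀ : D.X) (v : Vm D) :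
    ∃ F : ModularForm (Gamma0 (lev S Q)) 2, ∀ n : ℕ, 1 ≤ n → qCoeff F n = bb D x₀ n v := by
  classical
  have key : ∀ s : Finset D.X, ∃ F : ModularForm (Gamma0 (lev S Q)) 2, ∀ n : ℕ, 1 ≤ n →
      qCoeff F n = ∑ y ∈ s, (D.B n x₀ y : ℂ) * ((v : D.X → ℤ) y : ℂ) := by
    intro s
    induction s using Finset.induction_on with
    | empty =>
      refine ⟨0, fun n _ ↦ ?_⟩
      rw [Finset.sum_empty]
      have h2 := Theta.qCoeff_modular_sub_smul (M := lev S Q) 0 0 1 n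
      rw [one_mul] at h2
      have h3 : (⇑(0 : ModularForm (Gamma0 (lev S Q)) 2) - (1 : ℂ) •
          ⇑(0 : ModularForm (Gamma0 (lev S Q)) 2) : UpperHalfPlane → ℂ) =
          ⇑(0 : ModularForm (Gamma0 (lev S Q)) 2) := by
        funext τ
        simp
      rw [h3, sub_self] at h2
      exact h2
    | insert y s hy ih =>
      obtain ⟨F, hF⟩ := ih
      obtain ⟨G, hG⟩ := D.theta x₀ y
      refine ⟨F + (((v : D.X → ℤ) y : ℂ) / 2) • G, fun n hn ↦ ?_⟩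
      have h2 := Theta.qCoeff_modular_sub_smul (M := lev S Q) F G (-(((v : D.X → ℤ) y : ℂ) / 2)) n
      have h3 : (⇑F - (-(((v : D.X → ℤ) y : ℂ) / 2)) • ⇑G : UpperHalfPlane → ℂ) =
          ⇑(F + (((v : D.X → ℤ) y : ℂ) / 2) • G) := by
        funext τ
        simp [sub_eq_add_neg]
      rw [h3] at h2
      rw [h2, hF n hn, hG n hn, Finset.sum_insert hy]
      ring
  exact key Finset.univ

theorem isBrandt [NeZero (lev S Q)] (x₀ : D.X) : Theta.IsBrandt (lev S Q) (bb D x₀) where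
  b_heckeGen _ h _ hn v := bb_gen D x₀ h hn v
  modular v := bb_modular D x₀ v

/-- `w_q` on functions -/
def WW (q : ℕ) : Vm D →+ Vm D where
  toFun v := fun x ↦ (v : D.X → ℤ) (D.w q x)
  map_zero' := rfl
  map_add' _ _ := rfl

lemma WW_apply (q : ℕ) (v : Vm D) (x : D.X) : (WW D q v : D.X → ℤ) x = (v : D.X → ℤ) (D.w q x) := rfl

lemma bb_WW (x₀ : D.X) {q : ℕ} (hq : q ∈ Q) {n : ℕ} (hn : 1 ≤ n) (v : Vm D) :
    bb D x₀ n (WW D q v) = bb D x₀ (n * q) v := by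
  rw [bb_apply, bb_apply]
  have hd : q ∣ lev S Q := dvd_lev_right (Finset.dvd_prod_of_mem _ hq)
  rw [← Equiv.sum_comp (perm D q hd)]
  refine Finset.sum_congr rfl fun y _ ↦ ?_
  rw [WW_apply, perm_apply, D.w_sq q hd, ← D.B_q q hq n hn]

lemma WW_comm {q : ℕ} (hq : q ∣ lev S Q) {ℓ : Nat.Primes} (h : ¬ (ℓ : ℕ) ∣ lev S Q) (v : Vm D) :
    WW D q (heckeGen ℓ • v) = heckeGen ℓ • WW D q v := by
  funext x
  rw [WW_apply, gen_smul D h, gen_smul D h, ← Equiv.sum_comp (perm D q hq)]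
  refine Finset.sum_congr rfl fun y _ ↦ ?_
  rw [perm_apply, D.B_w q hq ℓ ℓ.2 h]
  rfl

lemma bb_WW_two (h2 : 2 ∣ lev S Q) (x₀ : D.X) {n : ℕ} (hn : 1 ≤ n) (v : Vm D) :
    bb D x₀ n (WW D 2 v) = bb D x₀ (n * 2) v := by
  rw [bb_apply, bb_apply]
  rw [← Equiv.sum_comp (perm D 2 h2)]
  refine Finset.sum_congr rfl fun y _ ↦ ?_
  rw [WW_apply, perm_apply, D.w_sq 2 h2, ← D.B_two n hn]

/-- **Block 4**: an element killing the sign space of cusp forms kills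
`(t_ℓ - ℓ - 1) ℤ[X]^ε`. -/
theorem kills_module [NeZero (lev S Q)] (h : Good S Q) (h2S : 2 ∈ S) (ε : ℕ → ℤ) (x : HeckeAlg)
    (hx : x ∈ anem (lev S Q)) (hk : Kills (lev S Q) Q ε x) (ℓ : Nat.Primes)
    (hℓ : ¬ (ℓ : ℕ) ∣ lev S Q) (v : D.X → ℤ) (hv : ∀ q ∈ Q, ∀ y, v (D.w q y) = ε q * v y) :
    hHom D (x * (heckeGen ℓ - ((ℓ : ℕ) + 1 : HeckeAlg))) v = 0 := by
  have h2 : 2 ∣ lev S Q := (Finset.dvd_prod_of_mem _ h2S).trans dvd_lev_left
  have hQM : ∀ q ∈ Q, q ∣ lev S Q := fun q hq ↦ dvd_lev_right (Finset.dvd_prod_of_mem _ hq)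
  have hQM' : ∀ q ∈ ({2} : Finset ℕ), q ∣ lev S Q := fun q hq ↦ by
    rw [Finset.mem_singleton.mp hq]; exact h2
  funext x₀
  have h1 := (isBrandt D x₀).transfer_kills₂ h.squarefree Q {2} hQM h.hQ hQM'
    (fun q hq ↦ by rw [Finset.mem_singleton.mp hq]; exact Nat.prime_two) ε (WW D)
    (fun q hq n hn v ↦ by
      rcases Finset.mem_union.mp hq with hq | hq
      · exact bb_WW D x₀ hq hn v
      · rw [Finset.mem_singleton.mp hq]
        exact bb_WW_two D h2 x₀ hn v)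
    (fun q hq l hl v ↦ by
      rcases Finset.mem_union.mp hq with hq | hq
      · exact WW_comm D (hQM q hq) hl v
      · exact WW_comm D (hQM' q hq) hl v)
    (fun q hq v ↦ by
      funext y
      rw [WW_apply, WW_apply]
      exact congrArg (v : D.X → ℤ) (D.w_sq q (hQM' q hq) y))
    x hx (fun f hf hf' ↦ hk f ⟨fun q hq ↦ by
        rw [CuspForm.heckeEvalForms_heckeGen_of_dvd (hQM q hq)]
        exact hf q hq, by
        rw [map_mul]
        have h3 := hf' 2 (Finset.mem_singleton_self 2)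
        have h4 : ((CuspForm.heckeEvalForms (lev S Q) 2 (heckeGen ⟨2, Nat.prime_two⟩) :
            CuspForm.heckeAlgebra (lev S Q) 2 ∅) :
              Module.End ℂ (CuspForm (Gamma0 (lev S Q)) 2)) =
            CuspForm.heckeULin 2 h2 := by
          rw [CuspForm.heckeEvalForms_heckeGen_of_dvd (q := (⟨2, Nat.prime_two⟩ : Nat.Primes)) h2]
          rfl
        rw [MulMemClass.coe_mul, h4]
        exact h3⟩) ℓ hℓ (v : Vm D) (fun q hq ↦ by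
      funext y
      show v (D.w q y) = (ε q • (v : D.X → ℤ)) y
      rw [hv q hq y, Pi.smul_apply, smul_eq_mul]) 1 le_rfl
  rw [bb_apply, Finset.sum_eq_single x₀, D.B_one, Nat.cast_one, one_mul] at h1
  · exact_mod_cast h1
  · intro y _ hy
    rw [D.B_one' x₀ y (Ne.symm hy), Nat.cast_zero, zero_mul]
  · exact fun h ↦ absurd (Finset.mem_univ _) h

end Fermat.Agent.P2.B34
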