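/-
P2: the output of the quaternionic side (blocks 3 and 4).
-/
import Fermat.Agent.P2.Quat.Inst
import Fermat.Agent.P2.Quat.EmbSep
import Fermat.Agent.P2.Quat.FixT
import Fermat.Agent.P2.Quat.ToSys

set_option autoImplicit false

noncomputable section

open NumberField

namespace Fermat.Agent.P2.B34

open Quat

/-! ### Products of finite sets of primes -/

theorem squarefree_prod {S : Finset ℕ} (hS : ∀ q ∈ S, q.Prime) : Squarefree (∏ q ∈ S, q) := by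
  refine Finset.squarefree_prod_of_pairwise_isCoprime (fun a ha b hb hab => ?_) fun q hq =>
    (hS q hq).squarefree
  exact Nat.coprime_iff_isRelPrime.mp ((Nat.coprime_primes (hS a ha) (hS b hb)).mpr hab)

theorem primeFactors_prod' {S : Finset ℕ} (hS : ∀ q ∈ S, q.Prime) :
    (∏ q ∈ S, q).primeFactors = S := Nat.primeFactors_prod hS

theorem coprime_prod {S Q : Finset ℕ} (hS : ∀ q ∈ S, q.Prime) (hQ : ∀ q ∈ Q, q.Prime)
    (h : Disjoint S Q) : (∏ q ∈ S, q).Coprime (∏ q ∈ Q, q) := by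
  refine Nat.Coprime.prod_left fun a ha => Nat.Coprime.prod_right fun b hb => ?_
  exact (Nat.coprime_primes (hS a ha) (hQ b hb)).mpr (Finset.disjoint_left.mp h ha |> fun h' e =>
    h' (e ▸ hb))

theorem prod_mod_four {S : Finset ℕ} (hS : ∀ q ∈ S, q.Prime) (h2 : 2 ∈ S) :
    (∏ q ∈ S, q) % 4 = 2 := by
  have hsq := squarefree_prod hS
  have h1 : 2 ∣ ∏ q ∈ S, q := Finset.dvd_prod_of_mem _ h2
  have h3 : ¬ 4 ∣ ∏ q ∈ S, q := by
    intro h
    have := hsq 2 h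
    rw [Nat.isUnit_iff] at this
    omega
  omega

/-- **Output of the quaternionic side.** -/
theorem brandtSys (S Q : Finset ℕ) (K : Type) [Field K] [NumberField K] (r : K)
    (hK : Module.finrank ℚ K = 2) (hr : r ^ 2 = -((∏ q ∈ S, q : ℕ) : K))
    (hS : ∀ q ∈ S, q.Prime) (h2S : 2 ∈ S)
    (h12 : ∃ q₁ ∈ S, ∃ q₀ ∈ S, q₁ ≠ q₀ ∧ q₁ % 12 = 1 ∧ q₀ ≠ 2)
    (hQ : ∀ q ∈ Q, q.Prime ∧ q ∉ S ∧ q ≠ 2 ∧ q ≠ 3 ∧
      ¬ IsSquare (-((∏ p ∈ S, p : ℕ) : ZMod q))) :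
    Nonempty (BrandtSys S Q K) := by
  classical
  set N := ∏ q ∈ S, q with hN
  set R := ∏ q ∈ Q, q with hR
  have hQp : ∀ q ∈ Q, q.Prime := fun q hq => (hQ q hq).1
  have hN4 : N % 4 = 2 := prod_mod_four hS h2S
  have hNs : Squarefree N := squarefree_prod hS
  have hRs : Squarefree R := squarefree_prod hQp
  have hdisj : Disjoint S Q := Finset.disjoint_right.mpr fun q hq => (hQ q hq).2.1
  have hcop : N.Coprime R := coprime_prod hS hQp hdisj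
  have hinert : ∀ q : ℕ, q.Prime → q ∣ R → ¬ IsSquare (-(N : ZMod q)) := by
    intro q hq hqR
    have hqQ : q ∈ Q := by
      rw [← primeFactors_prod' hQp]
      exact Nat.mem_primeFactors.mpr ⟨hq, hqR, hRs.ne_zero⟩
    exact (hQ q hqQ).2.2.2.2
  obtain ⟨q₁, hq₁S, q₀, hq₀S, hne, h121, h120⟩ := h12
  have hq₁N : q₁ ∣ N := Finset.dvd_prod_of_mem _ hq₁S
  have hq₀N : q₀ ∣ N := Finset.dvd_prod_of_mem _ hq₀S
  obtain ⟨ex, hex, hex1⟩ : ∃ ex : ℕ, ((Odd (N * R).primeFactors.card ∧ ex = 0) ∨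
      (Even (N * R).primeFactors.card ∧ ex.Prime ∧ ex ≠ 2 ∧ ex ∣ N)) ∧ (ex = 0 ∨ ex = q₀) := by
    rcases Nat.even_or_odd (N * R).primeFactors.card with h | h
    · exact ⟨q₀, Or.inr ⟨h, hS q₀ hq₀S, h120, hq₀N⟩, Or.inr rfl⟩
    · exact ⟨0, Or.inl ⟨h, rfl⟩, Or.inl rfl⟩
  obtain ⟨D, _, _, S₀, hM, ⟨T⟩, hram⟩ := exists_qorder hN4 hNs hRs hcop hinert hex
  have hramQ : ∀ q ∈ Q, S₀.ram q := by
    intro q hq
    have hqR : q ∣ R := Finset.dvd_prod_of_mem (fun q => q) hq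
    refine hram q (hQp q hq) (hqR.trans (Dvd.intro_left _ rfl)) ?_
    rcases hex1 with rfl | rfl
    · exact (hQp q hq).ne_zero
    · rintro rfl
      exact (hQ q hq).2.1 hq₀S
  have hram1 : S₀.ram q₁ := by
    refine hram q₁ (hS q₁ hq₁S) (hq₁N.trans (Dvd.intro _ rfl)) ?_
    rcases hex1 with rfl | rfl
    · exact (hS q₁ hq₁S).ne_zero
    · exact hne
  have hram2 : S₀.ram 2 := by
    have h2N : 2 ∣ N := Finset.dvd_prod_of_mem (fun q => q) h2S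
    refine hram 2 Nat.prime_two (h2N.trans (Dvd.intro _ rfl)) ?_
    rcases hex1 with rfl | rfl
    · exact two_ne_zero
    · exact fun h => h120 h.symm
  have hQq : ImQuad N K := ⟨Nat.pos_of_ne_zero hNs.ne_zero, r, by rw [← sq]; exact hr, hK⟩
  have hMl : S₀.M = lev S Q := hM
  have hadm : ∀ d : ℕ, d ∣ R → EmbSep.Adm S₀ N d := by
    intro d hd
    refine ⟨d, ?_, fun q hq hqd => hinert q hq (hqd.trans hd), Or.inl rfl⟩
    rw [hM, mul_comm]
    exact mul_dvd_mul_left N hd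
  refine ⟨S₀.toSys hMl hQp hramQ hram2 (hS q₁ hq₁S) hram1 h121 (EmbI.e T hQq hN4) ?_
    (EmbSep.c0 T hQq) ?_ ?_⟩
  · intro c
    obtain ⟨I, rfl⟩ := EmbI.exists_mk c
    rw [EmbI.e_mk, S₀.wN_cls T.dvd, EmbI.cls_e_mul_P (h2 := hN4), EmbI.e_mk]
  · intro c c' d hd h
    rw [S₀.wN_eq (hadm d hd).dvd] at h
    exact EmbSep.sep T hQq hN4 (hS q₁ hq₁S) hram1 h121 (hadm d hd) c c' h
  · intro ℓ hℓ hℓM c g _ hg
    let _ := Fintype.ofFinite S₀.X
    refine EmbI.sum_B_e T hQq hN4 hℓ (hMl ▸ hℓM) c g fun x => ?_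
    rw [← S₀.wN_eq T.dvd]
    exact hg x

end Fermat.Agent.P2.B34
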