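import Mathlib
import Fermat.Agent.P2.Defs
import Fermat.Agent.P2.Quat.Emb

/-!
# P2, glue for blocks 3 and 4: the primes of norm `ℓ` of `K = ℚ(√-N)`
-/

set_option autoImplicit false

noncomputable section

open NumberField Ideal
open scoped nonZeroDivisors

namespace Fermat.Agent.P2.B34

open Quat

variable (K : Type) [Field K] [NumberField K]

lemma finite_norm (ℓ : ℕ) :
    {𝔭 : (Ideal (𝓞 K))⁰ | Ideal.absNorm (𝔭 : Ideal (𝓞 K)) = ℓ}.Finite :=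
  (Ideal.finite_setOfPred_absNorm_le₀ (S := 𝓞 K) ℓ).subset fun _ h ↦ le_of_eq h

/-- the ideals of norm `ℓ` -/
def primesN (ℓ : ℕ) : Finset (Ideal (𝓞 K))⁰ := (finite_norm K ℓ).toFinset

variable {K}

@[simp] lemma mem_primesN {ℓ : ℕ} {𝔭 : (Ideal (𝓞 K))⁰} :
    𝔭 ∈ primesN K ℓ ↔ Ideal.absNorm (𝔭 : Ideal (𝓞 K)) = ℓ := by
  simp [primesN]

lemma finsum_norm_eq {M : Type*} [AddCommMonoid M] (f : (Ideal (𝓞 K))⁰ → M) (ℓ : ℕ) :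
    ∑ᶠ 𝔭 : {𝔭 : (Ideal (𝓞 K))⁰ // Ideal.absNorm (𝔭 : Ideal (𝓞 K)) = ℓ}, f 𝔭 =
      ∑ 𝔭 ∈ primesN K ℓ, f 𝔭 := by
  have h1 : (∑ᶠ 𝔭 : {𝔭 : (Ideal (𝓞 K))⁰ // Ideal.absNorm (𝔭 : Ideal (𝓞 K)) = ℓ}, f 𝔭) =
      ∑ᶠ (𝔭 : (Ideal (𝓞 K))⁰) (_ : Ideal.absNorm (𝔭 : Ideal (𝓞 K)) = ℓ), f 𝔭 :=
    finsum_subtype_eq_finsum_cond (fun 𝔭 : (Ideal (𝓞 K))⁰ ↦ Ideal.absNorm (𝔭 : Ideal (𝓞 K)) = ℓ)
  rw [h1]
  exact finsum_mem_eq_finite_toFinset_sum f (finite_norm K ℓ)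

lemma clT_eq (ℓ : ℕ) : clT K ℓ =
    ∑ 𝔭 ∈ primesN K ℓ, MonoidAlgebra.single (ClassGroup.mk0 𝔭) (1 : ZMod 2) := by
  classical
  exact finsum_norm_eq (fun 𝔭 ↦ MonoidAlgebra.single (ClassGroup.mk0 𝔭) (1 : ZMod 2)) ℓ

section Quad

variable {N : ℕ} (Q : ImQuad N K)

/-- conjugation on the ring of integers -/
def sg : 𝓞 K ≃+* 𝓞 K := RingOfIntegers.mapRingEquiv Q.conj

/-- `√-N` as an integer -/
def sO : 𝓞 K := ⟨Q.s, by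
  refine ⟨Polynomial.X ^ 2 + Polynomial.C (N : ℤ), by monicity!, ?_⟩
  rw [Polynomial.eval₂_add, Polynomial.eval₂_pow, Polynomial.eval₂_X, Polynomial.eval₂_C, pow_two,
    Q.sq]
  simp⟩

lemma sO_sq : sO Q * sO Q = -(N : 𝓞 K) := by
  apply RingOfIntegers.ext
  show Q.s * Q.s = _
  rw [Q.sq]
  simp

lemma sg_sO : sg Q (sO Q) = - sO Q := by
  apply RingOfIntegers.ext
  show Q.conj Q.s = _
  rw [Q.conj_s]
  rfl

/-- the conjugate ideal -/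
def cj (I : Ideal (𝓞 K)) : Ideal (𝓞 K) := I.map (sg Q)

lemma mem_cj {I : Ideal (𝓞 K)} {x : 𝓞 K} (hx : x ∈ I) : sg Q x ∈ cj Q I :=
  Ideal.mem_map_of_mem _ hx

lemma absNorm_cj (I : Ideal (𝓞 K)) : absNorm (cj Q I) = absNorm I := by
  rw [absNorm_apply, absNorm_apply, Submodule.cardQuot_apply, Submodule.cardQuot_apply]
  exact Nat.card_congr (Ideal.quotientEquiv I (cj Q I) (sg Q) rfl).toEquiv.symm

lemma exists_int {𝔭 : Ideal (𝓞 K)} {ℓ : ℕ} (hℓ : ℓ.Prime) (h : absNorm 𝔭 = ℓ) (x : 𝓞 K) :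
    ∃ t : ℤ, x - t ∈ 𝔭 := by
  haveI : Fact ℓ.Prime := ⟨hℓ⟩
  have hc : Nat.card (𝓞 K ⧸ 𝔭) = ℓ := by
    rw [← h, absNorm_apply, Submodule.cardQuot_apply]
  have h1 : (1 : 𝓞 K ⧸ 𝔭) ≠ 0 := by
    intro h0
    have : Subsingleton (𝓞 K ⧸ 𝔭) := subsingleton_of_zero_eq_one h0.symm
    rw [Nat.card_unique] at hc
    exact hℓ.one_lt.ne hc
  have h2 : AddSubgroup.zmultiples (1 : 𝓞 K ⧸ 𝔭) = ⊤ :=
    zmultiples_eq_top_of_prime_card hc h1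
  have h3 : Ideal.Quotient.mk 𝔭 x ∈ AddSubgroup.zmultiples (1 : 𝓞 K ⧸ 𝔭) := by
    rw [h2]; exact AddSubgroup.mem_top _
  obtain ⟨t, ht⟩ := AddSubgroup.mem_zmultiples_iff.mp h3
  refine ⟨t, ?_⟩
  rw [← Ideal.Quotient.eq_zero_iff_mem, map_sub, ← ht, map_intCast]
  simp

lemma dvd_of_mem {𝔭 : Ideal (𝓞 K)} {ℓ : ℕ} (hℓ : ℓ.Prime) (h : absNorm 𝔭 = ℓ) {m : ℤ}
    (hm : (m : 𝓞 K) ∈ 𝔭) : (ℓ : ℤ) ∣ m := by
  by_contra hd
  have hcop : IsCoprime (ℓ : ℤ) m := (Int.prime_iff_natAbs_prime.mpr (by simpa using hℓ)).coprime_iff_not_dvd.mpr hd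
  obtain ⟨a, b, hab⟩ := hcop
  have h1 : (1 : 𝓞 K) ∈ 𝔭 := by
    have h2 : (1 : 𝓞 K) = a * (ℓ : 𝓞 K) + b * (m : 𝓞 K) := by
      have := congrArg (Int.cast : ℤ → 𝓞 K) hab
      push_cast at this
      exact this.symm
    rw [h2]
    refine Ideal.add_mem _ (Ideal.mul_mem_left _ _ ?_) (Ideal.mul_mem_left _ _ hm)
    rw [← h]
    exact absNorm_mem 𝔭
  rw [(Ideal.eq_top_iff_one _).mpr h1, absNorm_top] at h
  exact hℓ.one_lt.ne h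

lemma cj_ne {𝔭 : Ideal (𝓞 K)} {ℓ : ℕ} (hℓ : ℓ.Prime) (h : absNorm 𝔭 = ℓ)
    (hN : ¬ ℓ ∣ N) (h2 : ℓ ≠ 2) : cj Q 𝔭 ≠ 𝔭 := by
  intro he
  obtain ⟨t, ht⟩ := exists_int hℓ h (sO Q)
  have h3 : - sO Q - t ∈ 𝔭 := by
    have := mem_cj Q ht
    rw [he, map_sub, sg_sO, map_intCast] at this
    exact this
  have h4 : (2 : 𝓞 K) * sO Q ∈ 𝔭 := by
    have := Ideal.sub_mem _ ht h3
    have e : sO Q - t - (- sO Q - t) = 2 * sO Q := by ring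
    rwa [e] at this
  have h5 : ((4 * N : ℤ) : 𝓞 K) ∈ 𝔭 := by
    have := Ideal.mul_mem_left 𝔭 (-2 * sO Q) h4
    have e : -2 * sO Q * (2 * sO Q) = ((4 * N : ℤ) : 𝓞 K) := by
      have hs := sO_sq Q
      push_cast
      linear_combination (-4 : 𝓞 K) * hs
    rwa [e] at this
  have h6 := dvd_of_mem hℓ h h5
  have h7 : ℓ ∣ 4 * N := by exact_mod_cast h6
  rcases (Nat.Prime.dvd_mul hℓ).mp h7 with h8 | h8
  · have h9 : ℓ ∣ 2 ^ 2 := h8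
    exact h2 ((Nat.prime_dvd_prime_iff_eq hℓ Nat.prime_two).mp (hℓ.dvd_of_dvd_pow h9))
  · exact hN h8

lemma mul_cj {𝔭 : Ideal (𝓞 K)} {ℓ : ℕ} (hℓ : ℓ.Prime) (h : absNorm 𝔭 = ℓ)
    (hN : ¬ ℓ ∣ N) (h2 : ℓ ≠ 2) : 𝔭 * cj Q 𝔭 = Ideal.span {(ℓ : 𝓞 K)} := by
  have hirr : Irreducible (absNorm 𝔭) := by rw [h]; exact hℓ
  have hirr' : Irreducible (absNorm (cj Q 𝔭)) := by rw [absNorm_cj, h]; exact hℓ
  haveI hp : 𝔭.IsPrime := isPrime_of_irreducible_absNorm hirr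
  haveI hp' : (cj Q 𝔭).IsPrime := isPrime_of_irreducible_absNorm hirr'
  have hb : 𝔭 ≠ ⊥ := by
    rintro rfl
    rw [absNorm_bot] at h
    exact hℓ.ne_zero h.symm
  have hb' : cj Q 𝔭 ≠ ⊥ := by
    intro h0
    have := absNorm_cj Q 𝔭
    rw [h0, absNorm_bot, h] at this
    exact hℓ.ne_zero this.symm
  haveI hm : 𝔭.IsMaximal := hp.isMaximal hb
  haveI hm' : (cj Q 𝔭).IsMaximal := hp'.isMaximal hb'
  have hcop : IsCoprime 𝔭 (cj Q 𝔭) :=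
    Ideal.isCoprime_of_isMaximal (cj_ne Q hℓ h hN h2).symm
  have h3 : 𝔭 * cj Q 𝔭 ∣ Ideal.span {(ℓ : 𝓞 K)} := by
    refine hcop.mul_dvd ?_ ?_
    · rw [Ideal.dvd_span_singleton, ← h]
      exact absNorm_mem _
    · rw [Ideal.dvd_span_singleton, ← h, ← absNorm_cj Q 𝔭]
      exact absNorm_mem _
  obtain ⟨C, hC⟩ := h3
  have h4 := congrArg absNorm hC
  rw [map_mul, map_mul, absNorm_cj, h, absNorm_span_natCast, RingOfIntegers.rank, Q.finrank,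
    pow_two] at h4
  have h5 : absNorm C = 1 := by
    have := hℓ.pos
    have h6 : 0 < ℓ * ℓ := Nat.mul_pos this this
    nlinarith [Nat.eq_of_mul_eq_mul_left h6 (h4.symm.trans (mul_one _).symm)]
  rw [absNorm_eq_one_iff] at h5
  rw [hC, h5, Ideal.mul_top]

lemma eq_or_eq_cj {𝔭 𝔮 : Ideal (𝓞 K)} {ℓ : ℕ} (hℓ : ℓ.Prime) (h : absNorm 𝔭 = ℓ)
    (hq : absNorm 𝔮 = ℓ) (hN : ¬ ℓ ∣ N) (h2 : ℓ ≠ 2) : 𝔮 = 𝔭 ∨ 𝔮 = cj Q 𝔭 := by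
  have hirr : Irreducible (absNorm 𝔭) := by rw [h]; exact hℓ
  have hirr' : Irreducible (absNorm (cj Q 𝔭)) := by rw [absNorm_cj, h]; exact hℓ
  haveI hp : 𝔭.IsPrime := isPrime_of_irreducible_absNorm hirr
  haveI hp' : (cj Q 𝔭).IsPrime := isPrime_of_irreducible_absNorm hirr'
  haveI hqp : 𝔮.IsPrime := isPrime_of_irreducible_absNorm (by rw [hq]; exact hℓ)
  have hb : 𝔭 ≠ ⊥ := by
    rintro rfl
    rw [absNorm_bot] at h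
    exact hℓ.ne_zero h.symm
  have hb' : cj Q 𝔭 ≠ ⊥ := by
    intro h0
    have := absNorm_cj Q 𝔭
    rw [h0, absNorm_bot, h] at this
    exact hℓ.ne_zero this.symm
  have h3 : 𝔭 * cj Q 𝔭 ≤ 𝔮 := by
    rw [mul_cj Q hℓ h hN h2, Ideal.span_singleton_le_iff_mem, ← hq]
    exact absNorm_mem _
  rcases (Ideal.IsPrime.mul_le hqp).mp h3 with h4 | h4
  · left
    exact ((hp.isMaximal hb).eq_of_le hqp.ne_top h4).symm
  · right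
    exact ((hp'.isMaximal hb').eq_of_le hqp.ne_top h4).symm

include Q in
/-- the two possibilities for `clT` -/
lemma clT_cases {ℓ : ℕ} (hℓ : ℓ.Prime) (hN : ¬ ℓ ∣ N) (h2 : ℓ ≠ 2) :
    clT K ℓ = 0 ∨ ∃ c : ClassGroup (𝓞 K),
      clT K ℓ = MonoidAlgebra.single c (1 : ZMod 2) + MonoidAlgebra.single c⁻¹ 1 := by
  classical
  rw [clT_eq]
  by_cases he : primesN K ℓ = ∅
  · left; rw [he, Finset.sum_empty]
  · right
    obtain ⟨𝔭, h𝔭⟩ := Finset.nonempty_iff_ne_empty.mpr he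
    rw [mem_primesN] at h𝔭
    have hb' : cj Q 𝔭 ∈ (Ideal (𝓞 K))⁰ := by
      rw [mem_nonZeroDivisors_iff_ne_zero]
      intro h0
      have := absNorm_cj Q 𝔭
      rw [h0, Ideal.zero_eq_bot, absNorm_bot, h𝔭] at this
      exact hℓ.ne_zero this.symm
    have hset : primesN K ℓ = {𝔭, ⟨cj Q 𝔭, hb'⟩} := by
      ext 𝔮
      rw [mem_primesN, Finset.mem_insert, Finset.mem_singleton]
      constructor
      · intro h
        rcases eq_or_eq_cj Q hℓ h𝔭 h hN h2 with h3 | h3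
        · exact Or.inl (Subtype.ext h3)
        · exact Or.inr (Subtype.ext h3)
      · rintro (rfl | rfl)
        · exact h𝔭
        · rw [← h𝔭]; exact absNorm_cj Q _
    have hne : 𝔭 ≠ ⟨cj Q 𝔭, hb'⟩ := fun h ↦
      cj_ne Q hℓ h𝔭 hN h2 (congrArg Subtype.val h).symm
    refine ⟨ClassGroup.mk0 𝔭, ?_⟩
    rw [hset, Finset.sum_pair hne]
    congr 2
    rw [eq_inv_iff_mul_eq_one, ← map_mul, ClassGroup.mk0_eq_one_iff]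
    have h3 : ((⟨cj Q 𝔭, hb'⟩ * 𝔭 : (Ideal (𝓞 K))⁰) : Ideal (𝓞 K)) = Ideal.span {(ℓ : 𝓞 K)} := by
      rw [Submonoid.coe_mul, mul_comm]
      exact mul_cj Q hℓ h𝔭 hN h2
    rw [h3]
    exact ⟨⟨_, rfl⟩⟩

end Quad

end Fermat.Agent.P2.B34
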