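import Mathlib
import Fermat.Agent.P2.B34.Mod
import Fermat.Agent.P2.B34.Primes
import Fermat.Agent.P2.B34.Out

/-!
# P2: `Block34Out` from the quaternionic data
-/

set_option autoImplicit false

noncomputable section

open ModularCurve CongruenceSubgroup NumberField ModularFormClass
open scoped nonZeroDivisors

namespace Fermat.Agent.P2.B34

open Fermat.Agent.P2

variable {S Q : Finset ℕ} {K : Type} [Field K] [NumberField K] (D : BrandtSys S Q K)

/-- the sign character of `W` attached to `ε` -/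
def epsHom (Q : Finset ℕ) (ε : ℕ → ℤ) (hε : ∀ q, ε q = 1 ∨ ε q = -1) : (Idx Q → ℤˣ) →* ℤˣ :=
  ∏ q : Q, (sgnHom (if ε q = 1 then (1 : ℤˣ) else -1) (by split_ifs <;> rfl)).comp
    (Pi.evalMonoidHom (fun _ : Idx Q ↦ ℤˣ) (some q))

open scoped Classical in
lemma epsHom_wN (ε : ℕ → ℤ) (hε : ∀ q, ε q = 1 ∨ ε q = -1) : epsHom Q ε hε wN = 1 := by
  unfold epsHom
  rw [MonoidHom.finset_prod_apply]
  refine Finset.prod_eq_one fun q _ ↦ ?_
  rw [MonoidHom.comp_apply]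
  have : (Pi.evalMonoidHom (fun _ : Idx Q ↦ ℤˣ) (some q)) wN = 1 := by
    show wN (some q) = 1
    unfold wN
    exact Pi.mulSingle_eq_of_ne (by simp) _
  rw [this, map_one]

open scoped Classical in
lemma epsHom_single (ε : ℕ → ℤ) (hε : ∀ q, ε q = 1 ∨ ε q = -1) (q : Q) :
    ((epsHom Q ε hε (Pi.mulSingle (some q) (-1)) : ℤˣ) : ℤ) = ε q := by
  unfold epsHom
  rw [MonoidHom.finset_prod_apply, Finset.prod_eq_single q]
  · rw [MonoidHom.comp_apply]
    have : (Pi.evalMonoidHom (fun _ : Idx Q ↦ ℤˣ) (some q))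
        (Pi.mulSingle (some q) (-1)) = -1 := by
      show (Pi.mulSingle (some q) (-1) : Idx Q → ℤˣ) (some q) = -1
      rw [Pi.mulSingle_eq_same]
    rw [this, sgnHom_neg_one]
    rcases hε q with h | h
    · rw [if_pos h, h]; rfl
    · rw [h, if_neg (by norm_num)]; rfl
  · intro q' _ hq'
    rw [MonoidHom.comp_apply]
    have : (Pi.evalMonoidHom (fun _ : Idx Q ↦ ℤˣ) (some q'))
        (Pi.mulSingle (some q) (-1)) = 1 := by
      show (Pi.mulSingle (some q) (-1) : Idx Q → ℤˣ) (some q') = 1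
      exact Pi.mulSingle_eq_of_ne (by simpa using hq') _
    rw [this, map_one]
  · exact fun h ↦ absurd (Finset.mem_univ _) h

/-- the classes of the ideals of norm `ℓ` -/
def uu (K : Type) [Field K] [NumberField K] (ℓ : ℕ) : Multiset (ClassGroup (𝓞 K)) :=
  (primesN K ℓ).val.map fun 𝔭 ↦ ClassGroup.mk0 𝔭

section Beta

variable {Λ : Type} [CommRing Λ] (β : MonoidAlgebra (ZMod 2) (ClassGroup (𝓞 K)) →+* Λ)

/-- `c ↦ β([c])` -/
def piB : ClassGroup (𝓞 K) →* Λ :=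
  β.toMonoidHom.comp (MonoidAlgebra.of (ZMod 2) (ClassGroup (𝓞 K)))

lemma piB_apply (c : ClassGroup (𝓞 K)) : piB β c = β (MonoidAlgebra.single c 1) := rfl

lemma dih2_eq {L : Type*} (u : L → ℕ) (l : L) :
    Smith.dih2 (piB β) (fun l ↦ uu K (u l)) l = β (clT K (u l)) := by
  rw [clT_eq, map_sum]
  unfold Smith.dih2 uu
  rw [Multiset.map_map]
  rfl

/-- the character `F_2 → Λ` -/
def zB : ZMod 2 →+* Λ := β.comp (algebraMap (ZMod 2) (MonoidAlgebra (ZMod 2) (ClassGroup (𝓞 K))))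

include β in
lemma two_eq_zero : (2 : Λ) = 0 := by
  have h1 : zB β 2 = 2 := map_ofNat (zB β) 2
  rw [← h1]
  have : (2 : ZMod 2) = 0 := rfl
  rw [this, map_zero]

include β in
lemma odd_add_one {ℓ : ℕ} (h : Odd ℓ) : ((ℓ : Λ) + 1) = 0 := by
  obtain ⟨k, rfl⟩ := h
  push_cast
  have h2 := two_eq_zero β
  linear_combination ((k : Λ) + 1) * h2

end Beta

lemma ne_two_of_not_dvd (h2 : 2 ∈ S) {ℓ : ℕ} (hℓ : ¬ ℓ ∣ lev S Q) : ℓ ≠ 2 := by
  rintro rfl
  exact hℓ ((Finset.dvd_prod_of_mem _ h2).trans dvd_lev_left)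

lemma clHecke_gen (ℓ : Nat.Primes) : clHecke K (heckeGen ℓ) = clT K ℓ := by
  unfold clHecke heckeGen
  rw [MvPolynomial.coe_eval₂Hom, MvPolynomial.eval₂_X]

/-- **The glue**: `Block34Out` for given `S`, `Q`, `K` from a `BrandtSys`. -/
theorem core (D : BrandtSys S Q K) [NeZero (lev S Q)] (h : Good S Q) (h2S : 2 ∈ S)
    (Im : Quat.ImQuad (∏ q ∈ S, q) K) (ε : ℕ → ℤ) (hε : ∀ q, ε q = 1 ∨ ε q = -1)
    {Λ : Type} [CommRing Λ] (β : MonoidAlgebra (ZMod 2) (ClassGroup (𝓞 K)) →+* Λ)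
    (hi : ∀ d : ℕ, d ∣ ∏ q ∈ Q, q → d ≠ 1 → ∃ ℓ : ℕ, ℓ.Prime ∧ ¬ ℓ ∣ lev S Q ∧
        ¬ IsSquare (-(d : ZMod ℓ)) ∧ IsUnit (β (clT K ℓ)))
    (hii : ∃ ℓ : ℕ, ℓ.Prime ∧ ¬ ℓ ∣ lev S Q ∧ IsUnit (β (clT K ℓ)))
    (x : HeckeAlg) (hx : x ∈ anem (lev S Q)) (hk : Kills (lev S Q) Q ε x) :
    β (clHecke K x) = 0 := by
  classical
  by_cases htriv : Subsingleton Λ
  · exact Subsingleton.elim _ _
  letI : MulAction (Idx Q → ℤˣ) D.X := MulAction.compHom D.X (wHom D h)
  haveI : Fintype (ClassGroup (𝓞 K)) := RingOfIntegers.instFintypeClassGroup K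
  have hsm : ∀ (u : Idx Q → ℤˣ) (y : D.X), u • y = wHom D h u y := fun _ _ ↦ rfl
  have hsN : ∀ y : D.X, (wN : Idx Q → ℤˣ) • y = D.w (∏ q ∈ S, q) y := fun y ↦ wHom_wN D h y
  -- the correspondences
  let L : Type := {ℓ : Nat.Primes // ¬ (ℓ : ℕ) ∣ lev S Q}
  let n : L → D.X → D.X → ℤ := fun ℓ ↦ nZ D ℓ.1
  have hdu : ∀ u : Idx Q → ℤˣ, dOf u Finset.univ ∣ ∏ q ∈ Q, q := fun u ↦
    (dOf_dvd u _).trans (prod_sub_dvd _)
  have hBw : ∀ (u : Idx Q → ℤˣ) (ℓ : ℕ), ℓ.Prime → ¬ ℓ ∣ lev S Q → ∀ y z : D.X,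
      D.B ℓ (u • y) (u • z) = D.B ℓ y z := by
    intro u ℓ hℓ hℓ' y z
    rw [hsm, hsm]
    have h3 : ∀ y, wHom D h u y = perm D (dOf u Finset.univ) (dvd_lev_right (hdu u))
        (if u none = 1 then y else D.w (∏ q ∈ S, q) y) := by
      intro y
      conv_lhs => rw [eq_prod u]
      rw [map_mul, Equiv.Perm.mul_apply]
      rcases Int.units_eq_one_or (u none) with h1 | h1
      · rw [h1, if_pos rfl]
        have : (Pi.mulSingle none (1 : ℤˣ) : Idx Q → ℤˣ) = 1 := Pi.mulSingle_one _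
        rw [this, map_one]
        exact wHom_prod D h u Finset.univ y
      · rw [h1, if_neg (by decide), wHom_single]
        exact wHom_prod D h u Finset.univ _
    rw [h3, h3, perm_apply, perm_apply, D.B_w _ (dvd_lev_right (hdu u)) ℓ hℓ hℓ']
    split_ifs
    · rfl
    · exact D.B_w _ dvd_lev_left ℓ hℓ hℓ' y z
  have hn : Smith.Equivar (W := Idx Q → ℤˣ) n := by
    intro l u y z
    show ((D.B (l.1 : ℕ) (u • y) (u • z) : ℕ) : ℤ) = ((D.B (l.1 : ℕ) y z : ℕ) : ℤ)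
    rw [hBw u l.1 l.1.2 l.2]
  obtain ⟨ℓ₀, hℓ₀, hℓ₀M, hu₀⟩ := hii
  -- the unit `π(a)² + 1`
  have ha : ∃ a : ClassGroup (𝓞 K), IsUnit (piB β a ^ 2 + 1) := by
    have hN : ¬ ℓ₀ ∣ ∏ q ∈ S, q := fun h ↦ hℓ₀M (h.trans dvd_lev_left)
    rcases clT_cases Im hℓ₀ hN (ne_two_of_not_dvd h2S hℓ₀M) with h3 | ⟨c, h3⟩
    · rw [h3, map_zero, isUnit_zero_iff] at hu₀
      exact absurd (subsingleton_of_zero_eq_one hu₀) htriv
    · refine ⟨c, ?_⟩
      rw [h3, map_add, ← piB_apply, ← piB_apply] at hu₀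
      have h4 : piB β c ^ 2 + 1 = piB β c * (piB β c + piB β c⁻¹) := by
        rw [mul_add, ← map_mul (piB β) c c⁻¹, mul_inv_cancel, map_one, pow_two]
      rw [h4]
      refine IsUnit.mul ?_ hu₀
      exact IsUnit.of_mul_eq_one (piB β c⁻¹) (by rw [← map_mul, mul_inv_cancel, map_one])
  refine Smith.star2_adjoin (X := D.X) (W := Idx Q → ℤˣ) (n := n) (w0 := wN) (𝓐 := Λ)
    (C := ClassGroup (𝓞 K)) (π := piB β) (e := D.e) (u := fun l : L ↦ uu K (l.1 : ℕ))
    (zB β) hn (fun w ↦ units_sq w) (epsHom Q ε hε) (epsHom_wN ε hε)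
    (fun c ↦ by rw [hsN]; exact D.w_e c) D.c0 ?_ ?_ ?_ ha
    (hHom D) (β.comp (clHecke K)) (fun l : L ↦ heckeGen l.1) ?_ ?_ x ?_ ?_
  · -- sep
    intro c c' u hu
    rw [hsm, wHom_of_fix D h u (D.w_e c')] at hu
    exact D.sep c c' _ (hdu u) hu
  · -- T
    intro l c g hg
    have h3 := D.T l.1 l.1.2 l.2 c g ?_ ?_
    · rw [finsum_norm_eq (fun 𝔭 ↦ g (D.e (ClassGroup.mk0 𝔭 * c))) (l.1 : ℕ)] at h3
      rw [Smith.op_apply]
      have h4 : ∑ y, (n l (D.e c) y : ZMod 2) * g y = ∑ y, (D.B l.1 (D.e c) y : ZMod 2) * g y := by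
        refine Finset.sum_congr rfl fun y _ ↦ ?_
        show (((D.B (l.1 : ℕ) (D.e c) y : ℕ) : ℤ) : ZMod 2) * g y = _
        rw [Int.cast_natCast]
      rw [h4, h3]
      unfold uu
      rw [Multiset.map_map]
      rfl
    · -- invariance under `w_d`
      intro d hd y
      -- the element of `W` attached to `d`
      let u : Idx Q → ℤˣ := fun i ↦ match i with
        | none => 1
        | some q => if (q : ℕ) ∣ d then -1 else 1
      have h5 : dOf u Finset.univ = d := by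
        unfold dOf
        have h6 : ∀ q : Q, (if u (some q) = 1 then 1 else (q : ℕ)) =
            if (q : ℕ) ∣ d then (q : ℕ) else 1 := by
          intro q
          by_cases hq : (q : ℕ) ∣ d
          · have : u (some q) = -1 := if_pos hq
            rw [this, if_pos hq, if_neg (by decide)]
          · have : u (some q) = 1 := if_neg hq
            rw [this, if_neg hq, if_pos rfl]
        rw [Finset.prod_congr rfl fun q _ ↦ h6 q]
        rw [Finset.prod_coe_sort Q (fun q ↦ if q ∣ d then q else 1), ← Finset.prod_filter]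
        -- squarefree number is the product of its prime divisors
        have hsq : Squarefree d := (squarefree_prod' h.hQ).squarefree_of_dvd hd
        have h7 : Q.filter (fun q ↦ q ∣ d) = d.primeFactors := by
          ext q
          rw [Finset.mem_filter, Nat.mem_primeFactors]
          constructor
          · rintro ⟨h8, h9⟩
            exact ⟨h.hQ q h8, h9, hsq.ne_zero⟩
          · rintro ⟨h8, h9, -⟩
            refine ⟨?_, h9⟩
            obtain ⟨q', hq', hd'⟩ := (Nat.Prime.prime h8).exists_mem_finset_dvd (h9.trans hd)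
            rwa [(Nat.prime_dvd_prime_iff_eq h8 (h.hQ q' hq')).mp hd']
        rw [h7]
        exact Nat.prod_primeFactors_of_squarefree hsq
      have h6 := hg u y
      rw [hsm] at h6
      have h7 : wHom D h u y = D.w d y := by
        conv_lhs => rw [eq_prod u]
        rw [map_mul, Equiv.Perm.mul_apply]
        have : (Pi.mulSingle none (u none) : Idx Q → ℤˣ) = 1 := Pi.mulSingle_one _
        rw [this, map_one]
        have h8 := wHom_prod D h u Finset.univ y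
        rw [h5] at h8
        exact h8
      rw [← h7]
      exact h6
    · intro y
      have h5 := hg wN y
      rw [hsN] at h5
      exact h5
  · -- evenness
    intro w hw hw0
    have hd1 := dOf_ne_one h hw hw0
    obtain ⟨ℓ, hℓ, hℓM, hsqr, hun⟩ := hi _ (hdu w) hd1
    refine ⟨⟨⟨ℓ, hℓ⟩, hℓM⟩, ?_, ?_⟩
    · rw [dih2_eq β (fun l : L ↦ ((l.1 : Nat.Primes) : ℕ))]
      exact hun
    · intro y z hy hz hwy hwz
      rw [hsN] at hy hz
      rw [hsm, wHom_of_fix D h w hy] at hwy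
      rw [hsm, wHom_of_fix D h w hz] at hwz
      have h3 := D.even ℓ hℓ hℓM _ (hdu w) hd1 hsqr y z hy hz hwy hwz
      show Even ((D.B ℓ y z : ℕ) : ℤ)
      exact_mod_cast h3
  · -- the action of the generators
    intro l
    rw [hHom_gen, TT_good D l.2]
    rfl
  · intro l
    rw [dih2_eq β (fun l : L ↦ ((l.1 : Nat.Primes) : ℕ))]
    show β (clHecke K (heckeGen l.1)) = _
    rw [clHecke_gen]
  · -- `x` is in the subalgebra generated by the `t_ℓ`
    have h3 : Set.range (fun l : L ↦ heckeGen l.1) =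
        {t | ∃ ℓ : Nat.Primes, ¬ (ℓ : ℕ) ∣ lev S Q ∧ t = heckeGen ℓ} := by
      ext t
      constructor
      · rintro ⟨l, rfl⟩
        exact ⟨l.1, l.2, rfl⟩
      · rintro ⟨ℓ, hℓ, rfl⟩
        exact ⟨⟨ℓ, hℓ⟩, rfl⟩
    rw [h3]
    exact hx
  · -- `x` kills the sign functions up to `t_ℓ - ℓ - 1`
    intro f hf
    let s : HeckeAlg := heckeGen ⟨ℓ₀, hℓ₀⟩ - ((ℓ₀ : ℕ) + 1 : HeckeAlg)
    refine ⟨s, ?_, ?_, ?_⟩
    · refine Subalgebra.sub_mem _ (Algebra.subset_adjoin ⟨⟨⟨ℓ₀, hℓ₀⟩, hℓ₀M⟩, rfl⟩) ?_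
      exact Subalgebra.add_mem _ (Subalgebra.natCast_mem _ _) (Subalgebra.one_mem _)
    · show IsUnit (β (clHecke K s))
      have h3 : β (clHecke K s) = β (clT K ℓ₀) := by
        show β (clHecke K (heckeGen ⟨ℓ₀, hℓ₀⟩ - ((ℓ₀ : ℕ) + 1 : HeckeAlg))) = _
        rw [map_sub, map_sub, map_add, map_add, map_natCast, map_natCast, map_one, map_one,
          odd_add_one β (hℓ₀.odd_of_ne_two (ne_two_of_not_dvd h2S hℓ₀M)), sub_zero]
        exact congrArg β (clHecke_gen (⟨ℓ₀, hℓ₀⟩ : Nat.Primes))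
      rw [h3]
      exact hu₀
    · intro y
      have hv : ∀ q ∈ Q, ∀ y, f (D.w q y) = ε q * f y := by
        intro q hq y
        have h3 := hf (Pi.mulSingle (some ⟨q, hq⟩) (-1)) y
        rw [hsm, wHom_single, epsHom_single] at h3
        exact h3
      have h4 := kills_module D h h2S ε x hx hk ⟨ℓ₀, hℓ₀⟩ hℓ₀M f hv
      have h5 : s * x = x * (heckeGen ⟨ℓ₀, hℓ₀⟩ - ((ℓ₀ : ℕ) + 1 : HeckeAlg)) := mul_comm _ _
      rw [h5]
      have h6 : hHom D (x * (heckeGen ⟨ℓ₀, hℓ₀⟩ - ((ℓ₀ : ℕ) + 1 : HeckeAlg))) f y = 0 := by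
        have := congrFun h4 y
        exact this
      rw [h6, Int.cast_zero]

/-- **`Block34Out` from the quaternionic data.** -/
theorem block34Out_of (hB : BrandtOut) : Block34Out := by
  intro S Q K _ _ r _ hfin hr hS h2 h12 hQ ε hε Λ _ β hi hii x hx hk
  obtain ⟨D⟩ := hB S Q K r hfin hr hS h2 h12 hQ
  have h : Good S Q := ⟨hS, fun q hq ↦ (hQ q hq).1, fun q hq ↦ (hQ q hq).2.1⟩
  have Im : Quat.ImQuad (∏ q ∈ S, q) K :=
    { pos := Nat.pos_of_ne_zero (Finset.prod_ne_zero_iff.mpr fun q hq ↦ (hS q hq).ne_zero)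
      s := r
      sq := by rw [← pow_two, hr]
      finrank := hfin }
  exact core D h h2 Im ε hε β hi hii x hx hk

theorem brandtOut : BrandtOut := by
  intro S Q K _ _ r hK hr hS h2S hR hQ
  obtain ⟨q₁, h1, q₀, h0, h12, h02, hne⟩ := hR
  exact brandtSys S Q K r hK hr hS h2S ⟨q₁, h1, q₀, h0, hne.symm, h12, h02⟩ hQ

/-- **Blocks 3 and 4.** -/
theorem block34Out : Block34Out := block34Out_of brandtOut

end Fermat.Agent.P2.B34
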